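import Mathlib
import Fermat.Agent.LT.T7.H751.FactDownQSpec

/-!
# Row LT, tower T7, node Q2.7.7 `MQ298.FactDownQC298`, leaf FDQ.6 `RayFinQC751` (helper78)

OFF-MAIN.  Registry row 2700.  Spec: `LT/T7/H751/FactDownQSpec.lean` (helper751, sha256 aa280353).

    rayFinQC78 : H751.RayFinQC751        VERBATIM, UNCONDITIONAL

## Proof

Mirror of `H301.rayFinC301` (helper301, the cubic leaf `H558.RayFinC558`) with `K = ℚ`, ONE real
place and `GL₂(ℝ)` instead of `GL₂(ℂ)`.  The real component of `r` is the scalar matrix `t`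
(`extensionEmbeddingOfIsReal_apply`: the coercion to `ℂ` of the real component is the complex
component `infComp`), so `|det (z⁻¹ (γ r^j)_∞ z)| = |det γ_∞| · (t²)^j` with `t > 1`
(`t ^ (2 [ℚ:ℚ]) = 2`, `0 < t`).  On the compact support of `Fr` the continuous functions `|det|`
and `|det|⁻¹` are bounded (`IsCompact.bddAbove_image`; no case distinction on the support being
empty), so `|det γ_∞| (t²)^j ≤ b` and `(|det γ_∞| (t²)^j)⁻¹ ≤ b'`, which fails for `|j| > N` as
soon as `(t²)^N > max (b / c) (b' c)`.  `J = [-N, N]`.  The continuity of `Fr` is not used.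

Only Mathlib and the Spec are imported.  Every declaration of this file is in the namespace
`Fermat.Agent.LT.T7.H78`; no equation lemma of an imported definition is used (the definitions
of the Spec are unfolded by `rfl` only).
-/

set_option autoImplicit false
set_option linter.unusedSectionVars false

open IsDedekindDomain NumberField

noncomputable section

namespace Fermat.Agent.LT.T7.H78

open Fermat.Agent.LT.H556 Fermat.Agent.LT.H556.A0 Fermat.Agent.LT.T7 Fermat.Agent.LT.T7.H305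

/-- `|det|` on `GL₂(ℝ)`. -/
def absDetR78 (B : GL (Fin 2) ℝ) : ℝ := |(B : Matrix (Fin 2) (Fin 2) ℝ).det|

theorem absDetR_pos78 (B : GL (Fin 2) ℝ) : 0 < absDetR78 B := by
  have h : IsUnit (B : Matrix (Fin 2) (Fin 2) ℝ).det :=
    (Matrix.isUnit_iff_isUnit_det _).1 B.isUnit
  exact abs_pos.2 h.ne_zero

theorem absDetR_mul78 (A B : GL (Fin 2) ℝ) :
    absDetR78 (A * B) = absDetR78 A * absDetR78 B := by
  simp only [absDetR78, Units.val_mul, Matrix.det_mul, abs_mul]

theorem absDetR_one78 : absDetR78 (1 : GL (Fin 2) ℝ) = 1 := by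
  simp [absDetR78]

/-- `|det|` as a homomorphism to the positive reals (as units of `ℝ`). -/
def absDetRHom78 : GL (Fin 2) ℝ →* ℝˣ where
  toFun B := Units.mk0 (absDetR78 B) (absDetR_pos78 B).ne'
  map_one' := Units.ext absDetR_one78
  map_mul' A B := Units.ext (absDetR_mul78 A B)

theorem absDetR_zpow78 (A : GL (Fin 2) ℝ) (j : ℤ) : absDetR78 (A ^ j) = absDetR78 A ^ j := by
  have h := map_zpow absDetRHom78 A j
  have h2 := congrArg (fun u : ℝˣ => (u : ℝ)) h
  simpa [absDetRHom78] using h2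

theorem absDetR_conj78 (z A : GL (Fin 2) ℝ) : absDetR78 (z⁻¹ * A * z) = absDetR78 A := by
  rw [absDetR_mul78, absDetR_mul78]
  have h := absDetR_mul78 z⁻¹ z
  rw [inv_mul_cancel, absDetR_one78] at h
  calc absDetR78 z⁻¹ * absDetR78 A * absDetR78 z
      = (absDetR78 z⁻¹ * absDetR78 z) * absDetR78 A := by ring
    _ = absDetR78 A := by rw [← h, one_mul]

theorem continuous_absDetR78 : Continuous absDetR78 :=
  continuous_abs.comp (Continuous.matrix_det Units.continuous_val)

/-- The bound on a compact set. -/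
theorem bounds_on_supportR78 (f : GL (Fin 2) ℝ → ℂ) (hf : HasCompactSupport f) :
    ∃ b b' : ℝ, ∀ B : GL (Fin 2) ℝ, f B ≠ 0 → absDetR78 B ≤ b ∧ (absDetR78 B)⁻¹ ≤ b' := by
  have hK : IsCompact (tsupport f) := hf
  obtain ⟨b, hb⟩ := hK.bddAbove_image continuous_absDetR78.continuousOn
  have hc' : Continuous fun B : GL (Fin 2) ℝ => (absDetR78 B)⁻¹ :=
    continuous_absDetR78.inv₀ (fun B => (absDetR_pos78 B).ne')
  obtain ⟨b', hb'⟩ := hK.bddAbove_image hc'.continuousOn
  refine ⟨b, b', fun B hB => ?_⟩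
  have hmem : B ∈ tsupport f := subset_tsupport f hB
  exact ⟨hb (Set.mem_image_of_mem _ hmem), hb' (Set.mem_image_of_mem _ hmem)⟩

/-- The real component of a matrix whose complex component at the real place of `ℚ` is the
scalar `t`. -/
theorem reGLQ_rayGen78 {r : G ℚ} {t : ℝ}
    (htw : infComp Rat.infinitePlace r = Matrix.diagonal (fun _ => (t : ℂ))) :
    ((MQ298.reGLQ298 r : GL (Fin 2) ℝ) : Matrix (Fin 2) (Fin 2) ℝ)
      = Matrix.diagonal (fun _ => t) := by
  ext i j
  have h1 : ((MQ298.reGLQ298 r : GL (Fin 2) ℝ) : Matrix (Fin 2) (Fin 2) ℝ) i j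
      = InfinitePlace.Completion.extensionEmbeddingOfIsReal Rat.isReal_infinitePlace
          (((r : Matrix (Fin 2) (Fin 2) (Adl ℚ)) i j).1 Rat.infinitePlace) := rfl
  have h2 : infComp Rat.infinitePlace r i j
      = InfinitePlace.Completion.extensionEmbedding Rat.infinitePlace
          (((r : Matrix (Fin 2) (Fin 2) (Adl ℚ)) i j).1 Rat.infinitePlace) := rfl
  have h3 := InfinitePlace.Completion.extensionEmbeddingOfIsReal_apply
    Rat.isReal_infinitePlace (((r : Matrix (Fin 2) (Fin 2) (Adl ℚ)) i j).1 Rat.infinitePlace)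
  have h4 : (((MQ298.reGLQ298 r : GL (Fin 2) ℝ) : Matrix (Fin 2) (Fin 2) ℝ) i j : ℂ)
      = Matrix.diagonal (fun _ => (t : ℂ)) i j := by
    rw [h1, h3, ← h2, htw]
  have h5 : Matrix.diagonal (fun _ : Fin 2 => (t : ℂ)) i j
      = ((Matrix.diagonal (fun _ : Fin 2 => t) i j : ℝ) : ℂ) := by
    by_cases hij : i = j
    · subst hij; simp
    · simp [Matrix.diagonal_apply_ne _ hij]
  rw [h5] at h4
  exact Complex.ofReal_injective h4

/-- The determinant of the ray generator at the real place. -/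
theorem absDetR_rayGen78 {r : G ℚ} {t : ℝ} (ht0 : 0 < t)
    (htw : infComp Rat.infinitePlace r = Matrix.diagonal (fun _ => (t : ℂ))) :
    absDetR78 (MQ298.reGLQ298 r) = t ^ 2 := by
  rw [absDetR78, reGLQ_rayGen78 htw, Matrix.det_diagonal]
  simp [abs_of_pos ht0]

theorem one_lt_of_rayGenQ78 {t : ℝ} (ht0 : 0 < t) (ht2 : t ^ (2 * Module.finrank ℚ ℚ) = 2) :
    1 < t := by
  by_contra h
  rw [not_lt] at h
  have h1 : t ^ (2 * Module.finrank ℚ ℚ) ≤ 1 := pow_le_one₀ ht0.le h
  rw [ht2] at h1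
  norm_num at h1

/-- Integers of large absolute value are excluded. -/
theorem zpow_outR78 {s c b b' : ℝ} (hs : 1 < s) (hc : 0 < c) :
    ∃ N : ℕ, ∀ j : ℤ, (N : ℤ) < |j| → ¬ (c * s ^ j ≤ b ∧ (c * s ^ j)⁻¹ ≤ b') := by
  obtain ⟨N, hN⟩ := pow_unbounded_of_one_lt (max (b / c) (b' * c)) hs
  have hs0 : 0 < s := lt_trans zero_lt_one hs
  refine ⟨N, fun j hj h => ?_⟩
  have hN1 : b / c < s ^ N := lt_of_le_of_lt (le_max_left _ _) hN
  have hN2 : b' * c < s ^ N := lt_of_le_of_lt (le_max_right _ _) hN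
  rcases lt_abs.1 hj with hpos | hneg
  · -- `N < j`
    have h1 : s ^ (N : ℤ) ≤ s ^ j := zpow_le_zpow_right₀ hs.le hpos.le
    rw [zpow_natCast] at h1
    have h2 : b / c < s ^ j := lt_of_lt_of_le hN1 h1
    rw [div_lt_iff₀ hc] at h2
    have := h.1
    linarith [mul_comm c (s ^ j)]
  · -- `N < -j`
    have h1 : s ^ (N : ℤ) ≤ s ^ (-j) := zpow_le_zpow_right₀ hs.le hneg.le
    rw [zpow_natCast, zpow_neg] at h1
    have hsj : 0 < s ^ j := zpow_pos hs0 j
    have h2 : b' * c < (s ^ j)⁻¹ := lt_of_lt_of_le hN2 h1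
    have h3 : (c * s ^ j)⁻¹ = (s ^ j)⁻¹ / c := by
      rw [mul_inv, div_eq_mul_inv, mul_comm]
    have h4 : b' < (s ^ j)⁻¹ / c := by
      rw [lt_div_iff₀ hc]; exact h2
    have := h.2
    rw [h3] at this
    linarith

/-- **LEAF FDQ.6 = RAY-FIN over `ℚ`** (registry row 2700), VERBATIM, UNCONDITIONAL. -/
theorem rayFinQC78 : H751.RayFinQC751 := by
  classical
  intro r hr Fr _hFc hFs γ
  obtain ⟨_, t, ht0, ht2, htw⟩ := hr
  have ht1 : 1 < t := one_lt_of_rayGenQ78 ht0 ht2
  have hs : (1 : ℝ) < t ^ 2 := one_lt_pow₀ ht1 (by norm_num)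
  obtain ⟨b, b', hbb⟩ := bounds_on_supportR78 Fr hFs
  obtain ⟨N, hN⟩ :=
    zpow_outR78 (b := b) (b' := b') hs (absDetR_pos78 (MQ298.reGLQ298 (T5.ratG γ)))
  refine ⟨Finset.Icc (-(N : ℤ)) N, fun j hj z => ?_⟩
  have hjN : (N : ℤ) < |j| := by
    rw [Finset.mem_Icc, not_and_or, not_le, not_le] at hj
    rw [lt_abs]
    rcases hj with h | h
    · right; linarith
    · left; exact h
  by_contra hne
  have h1 := hbb _ hne
  rw [absDetR_conj78, map_mul, map_zpow, absDetR_mul78, absDetR_zpow78,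
    absDetR_rayGen78 ht0 (htw Rat.infinitePlace)] at h1
  exact hN j hjN h1

example : Fermat.Agent.LT.T7.H751.RayFinQC751 := rayFinQC78

end Fermat.Agent.LT.T7.H78
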