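import Fermat.Agent.LT.T7.H78.ClassFin
import Fermat.Agent.LT.T1.Closed
import Fermat.Agent.LT.T2.Closed
import Fermat.Agent.LT.T3.Closed

/-!
# Row LT, tower T7, node `SimpleC` (helper963), leaf `ClassFinC` (helper78): CLOSED

OFF-MAIN.  ADDITIVE.  Registry row 2368 (T7.L2.2.N.S1).

    classFinC78 (K) : T7.H963.ClassFinC K        -- UNCONDITIONAL, every number field `K`

VERBATIM vs `LT/T7/H963/Simple.lean` (helper963@8d178033b, sha256 1da7252d78fe9c11).
Inputs (all closed): `T1.t1Out` (helper54), `T2.frame_pairDefinite_closed`, `T2.gps_of_T1`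
(helper130: `HSBound`), `T3.abelSatakeSmooth_closed` (helper14 / helper736), `H963.goodPrimeC`.
-/

set_option autoImplicit false

open IsDedekindDomain NumberField

namespace Fermat.Agent.LT.T7.H78

open Fermat.Agent.LT

/-- **LEAF `ClassFinC` (T7.L2.2.N.S1), CLOSED**: the class of joint eigen-data which are
spherical of parameter `0` lies in a finite-dimensional space. -/
theorem classFinC78 (K : Type) [Field K] [NumberField K] : T7.H963.ClassFinC K :=
  classFinC_of78 (T2.frame_pairDefinite_closed K (T1.t1Out K)).1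
    (T2.frame_pairDefinite_closed K (T1.t1Out K)).2
    (fun 𝔫 h𝔫 => (T2.gps_of_T1 K (T1.t1Out K) 𝔫 h𝔫).2.2.2.2.2.1)
    (T3.abelSatakeSmooth_closed K (T1.t1Out K))
    (T3.inAddHaar_of_T1 K (T1.t1Out K).locComp)
    (T3.inScalarUnif_of_T1 K (T1.t1Out K).heckeCoset)

example (K : Type) [Field K] [NumberField K] : T7.H963.ClassFinC K := classFinC78 K

end Fermat.Agent.LT.T7.H78
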