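import Fermat.Agent.LT.T7.H563.ProdShapeQSpec
import Fermat.Agent.LT.T7.P51.H321.SplitOrb

/-!
# Row LT, tower T7, node `PQ563.LocProdQC563`, leaf PS.L2 `SplitOrbQC563` (helper78, SPARE)

OFF-MAIN.  SPARE of registry row 2969.  Spec: `LT/T7/H563/ProdShapeQSpec.lean` (helper563).

    splitOrbQC78 (F) : PQ563.SplitOrbQC563 F        VERBATIM, UNCONDITIONAL

## Proof

PORT of `P51.H321.splitOrbC321` (helper321, the cubic leaf `P51.SplitOrbC51`) with `K = ℚ`,
`K' = F`, `ℓ = 2`: the local kit of helper321 (`exists_iwReps321`, `regLoc_map321`,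
`iwL_map321`, `isConvProd_iw321`, `level_eq321`, `orbit_period321`) is field-independent.
`t = [I : U(m_u)] = R.card`, the enumeration is `w j = o j` (`o (j + 2) = o j`), the
identifications of the completions are those of `T6.H116.instSplitC_h116` (two places over
`u`: `e = f = 1`, `H841.split_dataOF841` for the quadratic extension `F/ℚ`, which is Galois of
degree `2` because `F` has one infinite place and it is complex).

Every declaration of this file is in the namespace `Fermat.Agent.LT.T7.H78`; no equation lemma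
of an imported definition is used.
-/

set_option autoImplicit false
set_option linter.unusedSectionVars false

open AutomorphicForm IsDedekindDomain NumberField MeasureTheory

noncomputable section

namespace Fermat.Agent.LT.T7.H78

open Fermat.Agent.LT.H556 Fermat.Agent.LT.H556.A0 Fermat.Agent.LT.T7 Fermat.Agent.LT.T7.H305
  Fermat.Agent.LT.T7.L2Q Fermat.Agent.LT.T7.H893 Fermat.Agent.LT.T7.H962
  Fermat.Agent.LT.T7.H732 Fermat.Agent.LT.T7.MQ298 Fermat.Agent.LT.T7.CQ801
  Fermat.Agent.LT.T7.PQ563 Fermat.Agent.LT.T7.P51 Fermat.Agent.LT.T7.P51.H321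

attribute [local instance] Fermat.Agent.LT.T5.instMeasurableSpaceG

variable {F : Type} [Field F] [NumberField F]

/-- An imaginary quadratic field has degree `2`. -/
theorem finrank_of_imagQuad78 (h : IsImagQuad F) : Module.finrank ℚ F = 2 := by
  classical
  obtain ⟨hcard, htc⟩ := h
  have h1 := NumberField.InfinitePlace.card_add_two_mul_card_eq_rank F
  have hreal : NumberField.InfinitePlace.nrRealPlaces F = 0 := by
    unfold NumberField.InfinitePlace.nrRealPlaces
    rw [Fintype.card_eq_zero_iff]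
    exact ⟨fun w => (NumberField.InfinitePlace.not_isReal_iff_isComplex.2 (htc w.1)) w.2⟩
  have hcplx : NumberField.InfinitePlace.nrComplexPlaces F = 1 := by
    have h2 := NumberField.InfinitePlace.card_eq_nrRealPlaces_add_nrComplexPlaces F
    rw [hreal, zero_add, ← Nat.card_eq_fintype_card, hcard] at h2
    exact h2.symm
  rw [hreal, hcplx] at h1
  omega

/-- An imaginary quadratic field is a cyclic extension of `ℚ` of degree `2`. -/
theorem isCycExt_of_imagQuad78 (h : IsImagQuad F) : IsCycExt ℚ F 2 := by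
  have hdeg := finrank_of_imagQuad78 h
  have : Algebra.IsQuadraticExtension ℚ F := ⟨hdeg⟩
  exact ⟨Nat.prime_two, inferInstance, hdeg⟩

variable (F)

/-- **LEAF PS.L2 = SPLIT-ORB over `ℚ`** (spare of registry row 2969), VERBATIM, UNCONDITIONAL. -/
theorem splitOrbQC78 : Fermat.Agent.LT.T7.PQ563.SplitOrbQC563 F := by
  intro Φ B g 𝔫 μr μc T₀ n n₀ m hctx
  obtain ⟨R, hR1, hR2, hR3, hRne⟩ := exists_iwReps321 B.u (m B.u)
  refine ⟨(R.card : ℂ) ^ (2 - 1),
    pow_ne_zero _ (Nat.cast_ne_zero.mpr (Finset.card_ne_zero.mpr hRne)), ?_⟩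
  intro c H' z' H z lam k j T φ₀ Φ' f₀ F0 F1 hloc hsplit
  obtain ⟨_, hsys, _hc, _ht, _hlam, hprod⟩ := hloc
  obtain ⟨T₁, T₂, φ₁, Φ₁, f₁, F0₁, F1₁, φ₂, Φ₂, f₂, F0₂, F1₂, -, -, -, -, -, -, hfu, hφ0, hφ1,
    -, -, -, -⟩ := hprod
  have hfu' : f₀ B.u = fun x => (R.card : ℂ) ^ (2 - 1) * regLoc51 B.u z H k j iwFn893 x := hfu
  have hφ0' : φ₀ (B.o 0) = regLoc51 (B.o 0) z' H' k j iwFn893 := hφ0
  have hφ1' : φ₀ (B.o 1) = iwFn893 := hφ1
  have hcyc : IsCycExt ℚ F 2 := isCycExt_of_imagQuad78 hctx.quad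
  have hper : ∀ a : ℕ, B.o (a + 2) = B.o a := fun a =>
    orbit_period321 B.s 2 hctx.base.cyc.pow_eq B.o hctx.base.orbit_rel a
  have hover : ∀ j : ℕ, PlaceOver ℚ F B.u (B.o j) := fun j => hctx.base.orbit_over j
  have hdata : ∀ j : ℕ, ∃ i : B.u.adicCompletion ℚ ≃+* (B.o j).adicCompletion F,
      (∀ x : ℚ, i (algebraMap ℚ (B.u.adicCompletion ℚ) x)
        = algebraMap F ((B.o j).adicCompletion F) (algebraMap ℚ F x)) ∧
      ∀ x : B.u.adicCompletion ℚ, Valued.v (i x) = Valued.v x := by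
    intro j
    obtain ⟨w₁, w₂, h1, h2, hne⟩ := hsplit
    have hex : ∃ w' : HeightOneSpectrum (𝓞 F),
        PlaceOver ℚ F B.u w' ∧ w' ≠ B.o j := by
      by_cases h : w₁ = B.o j
      · exact ⟨w₂, h2, fun h' => hne (h.trans h'.symm)⟩
      · exact ⟨w₁, h1, h⟩
    obtain ⟨w', hw', hne'⟩ := hex
    obtain ⟨hN, hπ⟩ := Fermat.Agent.LT.T7.H841.split_dataOF841 2 hcyc B.u _ w'
      (hover j) hw' hne'
    exact Fermat.Agent.LT.T6.H116.instSplitC_h116 ℚ F B.u _
      ((Fermat.Agent.LT.T7.H841.placeOver_iffOF841 _ _).1 (hover j)) hN hπ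
  choose i hi1 hi2 using hdata
  -- the components along the enumeration
  have hG1 : ∀ y : GL (Fin 2) (B.u.adicCompletion ℚ),
      φ₀ (B.o 0) (Matrix.GeneralLinearGroup.map
        ((i 0 : B.u.adicCompletion ℚ ≃+* _) :
          B.u.adicCompletion ℚ →+* (B.o 0).adicCompletion F) y)
        = regLoc51 B.u z H k j iwFn893 y := by
    intro y
    rw [hφ0']
    exact regLoc_map321 (i 0) (hi2 0) hsys.sys hsys.sys' hsys.unif hsys.unif' k j y
  have hG2 : ∀ y : GL (Fin 2) (B.u.adicCompletion ℚ),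
      φ₀ (B.o 1) (Matrix.GeneralLinearGroup.map
        ((i 1 : B.u.adicCompletion ℚ ≃+* _) :
          B.u.adicCompletion ℚ →+* (B.o 1).adicCompletion F) y) = iwFn893 y := by
    classical
    intro y
    rw [hφ1']
    show (if InIw893 (Matrix.GeneralLinearGroup.map
        ((i 1 : B.u.adicCompletion ℚ ≃+* _) :
          B.u.adicCompletion ℚ →+* (B.o 1).adicCompletion F) y) then (1 : ℂ) else 0)
      = if InIw893 y then (1 : ℂ) else 0
    exact if_congr (iwL_map321 (i 1) (hi2 1) y) rfl rfl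
  refine ⟨fun j => B.o j, i, hover, ?_, ?_, hi1, hi2, ?_, ?_⟩
  · intro j'
    show T5.PlaceRel B.s (B.o (j' + 1)) (B.o j')
    have h1 := hctx.base.orbit_rel (j' + 1)
    have h2 : B.o (j' + 1 + 1) = B.o j' := hper j'
    rw [h2] at h1
    exact h1
  · intro j' hj0 hjl
    exact hctx.base.orbit_ne j' hj0 hjl
  · intro j'
    exact level_eq321 𝔫 n m hctx.lev_m hctx.lev_n B.u _ (i j') (hi1 j') (hi2 j')
  · have hf : f₀ B.u = fun y => (R.card : ℂ) ^ (2 - 1)
        * φ₀ (B.o 0) (Matrix.GeneralLinearGroup.map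
          ((i 0 : B.u.adicCompletion ℚ ≃+* _) :
            B.u.adicCompletion ℚ →+* (B.o 0).adicCompletion F) y) := by
      rw [hfu']
      funext y
      rw [hG1 y]
    show T6.IsConvProd (T6.InU (m B.u)) 2
      (fun j' y => φ₀ (B.o j') (Matrix.GeneralLinearGroup.map
        ((i j' : B.u.adicCompletion ℚ ≃+* _) :
          B.u.adicCompletion ℚ →+* (B.o j').adicCompletion F) y)) (f₀ B.u)
    rw [hf]
    refine isConvProd_iw321 hR1 hR2 hR3 2
      (fun j' y => φ₀ (B.o j') (Matrix.GeneralLinearGroup.map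
        ((i j' : B.u.adicCompletion ℚ ≃+* _) :
          B.u.adicCompletion ℚ →+* (B.o j').adicCompletion F) y)) ?_ ?_
    · intro i₁ y hi₁
      show φ₀ (B.o 0) _ = φ₀ (B.o 0) _
      rw [hG1, hG1]
      exact (Fermat.Agent.LT.T7.H409.isIwReg_regLoc409 0 hsys.sys hsys.unif k j).2.1 i₁ y hi₁
    · intro j' hj0 hjl
      have hj1 : j' = 1 := by omega
      subst hj1
      funext y
      exact hG2 y

/-- VERBATIM check. -/
example (F : Type) [Field F] [NumberField F] :
    Fermat.Agent.LT.T7.PQ563.SplitOrbQC563 F := splitOrbQC78 F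

end Fermat.Agent.LT.T7.H78
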