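import Fermat.Agent.LT.T7.H78.ClassFinAbs
import Fermat.Agent.LT.T7.H963.GoodPrime
import Fermat.Agent.LT.T3.SmoothSpec
import Fermat.Agent.LT.T3.H732.EKAlg
import Fermat.Agent.LT.T2.H848.ConvLin
import Fermat.Agent.LT.T2.H886.CuspAlg

/-!
# Row LT, tower T7, node `SimpleC` (helper963), leaf `ClassFinC` (helper78): the proof

OFF-MAIN.  ADDITIVE (new names only).  Complete proofs, nothing assumed.

    classFinC_of78 : T2.FrameExists K → (∀ 𝔫 ≠ ⊥, T2.PairDefinite K 𝔫) →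
        (∀ 𝔫 ≠ ⊥, T2.HSBound K 𝔫) → T3.AS.AbelSatakeSmoothC K → T3.InAddHaarC K →
        T3.InScalarUnifC K → T7.H963.ClassFinC K

(all six hypotheses are CLOSED in the towers T1, T2, T3: `ClassFinClosed.lean`).

## Proof

`𝔫 ≠ ⊥`, `C` spherical of parameter `0`.  Take a prime `v₀ ∤ 𝔫` (`H963.goodPrimeC`).
* If `C.b v₀ = 0` the class is `{0}` (`S_{v₀}` is invertible; `H732.eq_zero_of_b_eq_zero732`).
* Otherwise take `n > 0`, `a₀ ≡ 1 mod 𝔫` with `(a₀) = v₀ⁿ` (`exists_ray_pow78`), the roots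
  `z₁, z₂` of `X² - (C.a v₀) X + C.b v₀`, and the test function `f` of the Abel--Satake station
  (T3.18a, smooth form) for the symmetric pure tensor `Φ₁ = δ_{(0,0)} ⊗ ⊗_w (bump ⊗ bump)`:
  `R(f) ψ = λ ψ` for EVERY `ψ` of the class, with
  `λ = κ₀ · Φ₁^(z₁,z₂) = κ₀ · (∫ bump)^{2 r₂} ≠ 0`
  (no Eisenstein-killing factor is needed here: on the cusp functions every test function is
  Hilbert--Schmidt).  The eigenspace `{R(f) = λ}` in the pre-Hilbert space of the cusp functions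
  of level `𝔫` is finite-dimensional: for an orthonormal family `e₁, …, e_m` in it,
  `m |λ|² = ∑ ‖R(f) e_i‖² ≤ C(f)` (`T2.HSBound`).
-/

set_option autoImplicit false
set_option linter.style.haveILetI false
set_option linter.unusedSectionVars false
set_option linter.unusedVariables false

open IsDedekindDomain NumberField MeasureTheory AutomorphicForm
open Fermat.Agent.LT.H556.A0
open scoped InnerProductSpace ComplexConjugate

noncomputable section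

namespace Fermat.Agent.LT.T7.H78

open Fermat.Agent.LT

variable {K : Type} [Field K] [NumberField K]

attribute [local instance] Fermat.Agent.LT.T2.borelG

attribute [-instance] CStarModule.toInner

/-! ## 1. The pre-Hilbert space of the cusp functions of level `𝔫` -/

/-- The pre-Hilbert space: the cusp functions of level `U(𝔫)` with the Petersson pairing of the
frame `F`. -/
def Sp78 (_F : T2.Frame K) (𝔫 : Ideal (𝓞 K)) (_h : T2.PairDefinite K 𝔫) : Type :=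
  T2.H886.cuspSubmodule886 (K := K) 𝔫

section Space

variable (F : T2.Frame K) (𝔫 : Ideal (𝓞 K)) (hPD : T2.PairDefinite K 𝔫)

instance : NormedAddCommGroup (Sp78 F 𝔫 hPD) :=
  @InnerProductSpace.Core.toNormedAddCommGroup ℂ (T2.H886.cuspSubmodule886 (K := K) 𝔫) _ _ _
    (T2.H886.core886 F 𝔫 hPD)

instance : InnerProductSpace ℂ (Sp78 F 𝔫 hPD) :=
  @InnerProductSpace.ofCore ℂ (T2.H886.cuspSubmodule886 (K := K) 𝔫) _ _ _
    (T2.H886.core886 F 𝔫 hPD).toCore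

/-- The underlying function. -/
def Sp78.fn (x : Sp78 F 𝔫 hPD) : G K → ℂ := (show T2.H886.cuspSubmodule886 (K := K) 𝔫 from x).1

theorem Sp78.isCusp (x : Sp78 F 𝔫 hPD) : T2.IsCuspFn 𝔫 (Sp78.fn F 𝔫 hPD x) :=
  (show T2.H886.cuspSubmodule886 (K := K) 𝔫 from x).2

/-- The vector of a cusp function. -/
def Sp78.mk {f : G K → ℂ} (hf : T2.IsCuspFn 𝔫 f) : Sp78 F 𝔫 hPD :=
  (⟨f, hf⟩ : T2.H886.cuspSubmodule886 (K := K) 𝔫)

@[simp] theorem Sp78.fn_mk {f : G K → ℂ} (hf : T2.IsCuspFn 𝔫 f) :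
    Sp78.fn F 𝔫 hPD (Sp78.mk F 𝔫 hPD hf) = f := rfl

theorem Sp78.inner_def (x y : Sp78 F 𝔫 hPD) :
    ⟪x, y⟫_ℂ = T2.pair F (Sp78.fn F 𝔫 hPD y) (Sp78.fn F 𝔫 hPD x) := rfl

theorem Sp78.fn_add (x y : Sp78 F 𝔫 hPD) :
    Sp78.fn F 𝔫 hPD (x + y) = fun g => Sp78.fn F 𝔫 hPD x g + Sp78.fn F 𝔫 hPD y g := rfl

theorem Sp78.fn_smul (c : ℂ) (x : Sp78 F 𝔫 hPD) :
    Sp78.fn F 𝔫 hPD (c • x) = fun g => c * Sp78.fn F 𝔫 hPD x g := rfl

theorem Sp78.fn_zero : Sp78.fn F 𝔫 hPD (0 : Sp78 F 𝔫 hPD) = fun _ => 0 := rfl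

/-- The underlying function, as a linear map. -/
def Sp78.fnL : Sp78 F 𝔫 hPD →ₗ[ℂ] (G K → ℂ) := (T2.H886.cuspSubmodule886 (K := K) 𝔫).subtype

theorem Sp78.fnL_apply (x : Sp78 F 𝔫 hPD) : Sp78.fnL F 𝔫 hPD x = Sp78.fn F 𝔫 hPD x := rfl

/-! ## 2. The eigenspace of a convolution operator -/

/-- Convolution is homogeneous. -/
theorem conv_const_mul78 (f φ : G K → ℂ) (c : ℂ) :
    T2.conv F f (fun g => c * φ g) = fun g => c * T2.conv F f φ g := by
  funext x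
  show ∫ h, (c * φ (x * h)) * f h ∂F.μ = c * ∫ h, φ (x * h) * f h ∂F.μ
  rw [← integral_const_mul]
  refine integral_congr_ae (Filter.Eventually.of_forall fun h => ?_)
  show c * φ (x * h) * f h = c * (φ (x * h) * f h)
  ring

/-- Convolution is additive on the continuous functions. -/
theorem conv_add78 {f φ ψ : G K → ℂ} (hf : Continuous f) (hc : HasCompactSupport f)
    (hφ : Continuous φ) (hψ : Continuous ψ) :
    T2.conv F f (fun g => φ g + ψ g) = fun g => T2.conv F f φ g + T2.conv F f ψ g := by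
  have h := T2.H848.conv_lin848 F hf hc hφ hψ 1
  simp only [one_mul] at h
  exact h

/-- The eigenspace `{R(f) = lam}` in the cusp functions of level `𝔫`. -/
def eigSub78 {f : G K → ℂ} (hf : Continuous f) (hc : HasCompactSupport f) (lam : ℂ) :
    Submodule ℂ (Sp78 F 𝔫 hPD) where
  carrier := {x | T2.conv F f (Sp78.fn F 𝔫 hPD x) = fun g => lam * Sp78.fn F 𝔫 hPD x g}
  zero_mem' := by
    show T2.conv F f (Sp78.fn F 𝔫 hPD 0) = fun g => lam * Sp78.fn F 𝔫 hPD 0 g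
    rw [Sp78.fn_zero]
    funext x
    show ∫ h, (0 : ℂ) * f h ∂F.μ = lam * 0
    simp
  add_mem' := by
    intro x y hx hy
    show T2.conv F f (Sp78.fn F 𝔫 hPD (x + y)) = fun g => lam * Sp78.fn F 𝔫 hPD (x + y) g
    rw [Sp78.fn_add, conv_add78 F hf hc (Sp78.isCusp F 𝔫 hPD x).cont (Sp78.isCusp F 𝔫 hPD y).cont]
    have hx' : T2.conv F f (Sp78.fn F 𝔫 hPD x) = fun g => lam * Sp78.fn F 𝔫 hPD x g := hx
    have hy' : T2.conv F f (Sp78.fn F 𝔫 hPD y) = fun g => lam * Sp78.fn F 𝔫 hPD y g := hy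
    rw [hx', hy']
    funext g
    ring
  smul_mem' := by
    intro c x hx
    show T2.conv F f (Sp78.fn F 𝔫 hPD (c • x)) = fun g => lam * Sp78.fn F 𝔫 hPD (c • x) g
    rw [Sp78.fn_smul, conv_const_mul78]
    have hx' : T2.conv F f (Sp78.fn F 𝔫 hPD x) = fun g => lam * Sp78.fn F 𝔫 hPD x g := hx
    rw [hx']
    funext g
    ring

theorem mem_eigSub78 {f : G K → ℂ} (hf : Continuous f) (hc : HasCompactSupport f) (lam : ℂ)
    (x : Sp78 F 𝔫 hPD) :
    x ∈ eigSub78 F 𝔫 hPD hf hc lam ↔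
      T2.conv F f (Sp78.fn F 𝔫 hPD x) = fun g => lam * Sp78.fn F 𝔫 hPD x g := Iff.rfl

/-- `‖lam φ‖² = |lam|² ‖φ‖²`. -/
theorem nsq_const_mul78 (lam : ℂ) (φ : G K → ℂ) :
    T2.nsq F (fun g => lam * φ g) = ‖lam‖ ^ 2 * T2.nsq F φ := by
  unfold T2.nsq
  rw [T2.H886.pair_const_mul_left886, T2.H886.pair_const_mul_right886, ← mul_assoc,
    Complex.mul_conj, Complex.normSq_eq_norm_sq]
  rw [show ((‖lam‖ ^ 2 : ℝ) : ℂ) * T2.pair F φ φ = ((‖lam‖ ^ 2 : ℝ) : ℂ) * T2.pair F φ φ from rfl,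
    Complex.re_ofReal_mul]

/-- **The Hilbert--Schmidt bound on an eigenspace**: an orthonormal family in the eigenspace
`{R(f) = lam}` has at most `C / |lam|²` members. -/
theorem card_mul_le78 {f : G K → ℂ} (hf : Continuous f) (hc : HasCompactSupport f) (lam : ℂ)
    {C₀ : ℝ}
    (hHS : ∀ (n : ℕ) (φ : Fin n → G K → ℂ), (∀ i, T2.IsCuspFn 𝔫 (φ i)) →
      (∀ i j, T2.pair F (φ i) (φ j) = if i = j then 1 else 0) →
      ∑ i, T2.nsq F (T2.conv F f (φ i)) ≤ C₀)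
    (n : ℕ) (e : Fin n → eigSub78 F 𝔫 hPD hf hc lam) (he : Orthonormal ℂ e) :
    (n : ℝ) * ‖lam‖ ^ 2 ≤ C₀ := by
  classical
  have hite := orthonormal_iff_ite.1 he
  have hpair : ∀ i j, T2.pair F (Sp78.fn F 𝔫 hPD (e i : Sp78 F 𝔫 hPD))
      (Sp78.fn F 𝔫 hPD (e j : Sp78 F 𝔫 hPD)) = if i = j then 1 else 0 := by
    intro i j
    have h1 := hite j i
    rw [Submodule.coe_inner, Sp78.inner_def] at h1
    rw [h1]
    by_cases hij : i = j
    · rw [if_pos hij, if_pos hij.symm]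
    · rw [if_neg hij, if_neg (fun h => hij h.symm)]
  have h2 := hHS n (fun i => Sp78.fn F 𝔫 hPD (e i : Sp78 F 𝔫 hPD))
    (fun i => Sp78.isCusp F 𝔫 hPD _) hpair
  have h3 : ∀ i : Fin n, T2.nsq F (T2.conv F f (Sp78.fn F 𝔫 hPD (e i : Sp78 F 𝔫 hPD)))
      = ‖lam‖ ^ 2 := by
    intro i
    have hi : T2.conv F f (Sp78.fn F 𝔫 hPD (e i : Sp78 F 𝔫 hPD))
        = fun g => lam * Sp78.fn F 𝔫 hPD (e i : Sp78 F 𝔫 hPD) g := (e i).2
    rw [hi, nsq_const_mul78]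
    have h4 : T2.nsq F (Sp78.fn F 𝔫 hPD (e i : Sp78 F 𝔫 hPD)) = 1 := by
      unfold T2.nsq
      rw [hpair i i, if_pos rfl, Complex.one_re]
    rw [h4, mul_one]
  rw [Finset.sum_congr rfl (fun i _ => h3 i)] at h2
  simpa using h2

/-- The eigenspace of a Hilbert--Schmidt operator for a non-zero eigenvalue is
finite-dimensional. -/
theorem finite_eigSub78 {f : G K → ℂ} (hf : Continuous f) (hc : HasCompactSupport f) {lam : ℂ}
    (hlam : lam ≠ 0) {C₀ : ℝ}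
    (hHS : ∀ (n : ℕ) (φ : Fin n → G K → ℂ), (∀ i, T2.IsCuspFn 𝔫 (φ i)) →
      (∀ i j, T2.pair F (φ i) (φ j) = if i = j then 1 else 0) →
      ∑ i, T2.nsq F (T2.conv F f (φ i)) ≤ C₀) :
    FiniteDimensional ℂ (eigSub78 F 𝔫 hPD hf hc lam) := by
  have hpos : 0 < ‖lam‖ ^ 2 := by positivity
  refine finiteDimensional_of_orthonormal_le78 ⌊C₀ / ‖lam‖ ^ 2⌋₊ fun n e he => ?_
  have h1 := card_mul_le78 F 𝔫 hPD hf hc lam hHS n e he
  have h2 : (n : ℝ) ≤ C₀ / ‖lam‖ ^ 2 := by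
    rw [le_div_iff₀ hpos]
    exact h1
  exact Nat.le_floor h2

end Space

/-! ## 3. The test function -/

section Test

variable (K)

/-- `Φ₁ = δ_{(0,0)} ⊗ ⊗_w (bump ⊗ bump)` on the coordinate group. -/
def Phi78 : T3.Coord K → ℂ := T3.H732.Phi1_732 (ι := InfinitePlace K)

theorem phi78_mem : Phi78 K ∈ T3.SymSpan K := by
  classical
  refine Submodule.subset_span ?_
  refine ⟨fun m => if m = 0 then 1 else 0, fun _ => T3.H732.B732, ?_, ?_, ?_, ?_⟩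
  · refine (Set.finite_singleton (0 : ℤ × ℤ)).subset ?_
    intro m hm
    rw [Function.mem_support] at hm
    by_contra h
    exact hm (if_neg h)
  · intro m₁ m₂
    beta_reduce
    have : ((m₁, m₂) : ℤ × ℤ) = 0 ↔ ((m₂, m₁) : ℤ × ℤ) = 0 := by
      simp only [Prod.mk_eq_zero]
      exact and_comm
    by_cases h : ((m₁, m₂) : ℤ × ℤ) = 0
    · rw [if_pos h, if_pos (this.1 h)]
    · rw [if_neg h, if_neg (fun h' => h (this.2 h'))]
  · intro w
    refine ⟨T3.H732.contDiff_B732, T3.H732.hasCompactSupport_B732, fun x y => ?_⟩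
    show T3.H732.B732 (x, y) = T3.H732.B732 (y, x)
    unfold T3.H732.B732
    rw [mul_comm]
  · intro m x
    rfl

/-- The Fourier--Laplace transform of `Φ₁` is the constant `(∫ bump)^{2 r₂} ≠ 0`. -/
theorem ftCoord_phi78 (z₁ z₂ : ℂ) :
    T3.ftCoord K (Phi78 K) z₁ z₂ = T3.H732.J732 (InfinitePlace K) := by
  classical
  unfold T3.ftCoord
  rw [finsum_eq_single _ (0 : ℤ × ℤ)]
  · show (∫ x : InfinitePlace K → ℝ × ℝ, Phi78 K (0, x)) * z₁ ^ (0 : ℤ) * z₂ ^ (0 : ℤ) = _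
    rw [zpow_zero, zpow_zero, mul_one, mul_one]
    unfold T3.H732.J732
    refine integral_congr_ae (Filter.Eventually.of_forall fun x => ?_)
    show T3.H732.Phi1_732 (ι := InfinitePlace K) (0, x) = _
    unfold T3.H732.Phi1_732
    simp
  · intro m hm
    have h0 : ∀ x : InfinitePlace K → ℝ × ℝ, Phi78 K (m, x) = 0 := by
      intro x
      show T3.H732.Phi1_732 (ι := InfinitePlace K) (m, x) = 0
      unfold T3.H732.Phi1_732
      rw [if_neg hm, zero_mul]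
    simp only [h0, integral_zero, zero_mul]

end Test

/-! ## 4. The leaf -/

/-- A function of the class is a cusp function of level `𝔫` in the sense of T2. -/
theorem isCuspFn_of_isEigFn78 {𝔫 : Ideal (𝓞 K)} {r : G K} {l : ℕ}
    {o : ℕ → HeightOneSpectrum (𝓞 K)} {C : EigData K} {ψ : G K → ℂ}
    (hψ : IsEigFn 𝔫 r l o ψ C) : T2.IsCuspFn 𝔫 ψ where
  cont := hψ.inv.cusp.cont
  bdd := hψ.inv.cusp.bdd
  left_inv := hψ.inv.cusp.aut.left_inv
  level_inv := hψ.inv.cusp.aut.level_inv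
  arch_scalar := hψ.inv.arch_scalar
  arch_compact := fun w k hk g => by
    have h := hψ.inv.cusp.aut.arch_compact w k hk g
    rw [h]
    show (1 : ℂ) * ψ g = ψ g
    rw [one_mul]
  cuspidal := hψ.inv.cusp.cuspidal

/-- A function of a class which is spherical of parameter `0` is spherical of parameter `0` of
level `𝔫` in the sense of T3. -/
theorem isSph0Level_of_isEigFn78 (hcx : ∀ w : InfinitePlace K, w.IsComplex) {𝔫 : Ideal (𝓞 K)}
    {r : G K} {l : ℕ} {o : ℕ → HeightOneSpectrum (𝓞 K)} {C : EigData K} (hC : C.IsSph0)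
    {ψ : G K → ℂ} (hψ : IsEigFn 𝔫 r l o ψ C) : T3.IsSph0Level K 𝔫 ψ where
  cont := hψ.inv.cusp.cont
  level_inv := hψ.inv.cusp.aut.level_inv
  arch_scalar := hψ.inv.arch_scalar
  arch_compact := (isCuspFn_of_isEigFn78 hψ).arch_compact
  mean_complex := fun w _ d hd Y hY g => by
    rw [hψ.mean w d hd Y hY g, hC w d hd]
    rfl
  mean_real := fun w hw => absurd hw (InfinitePlace.not_isReal_iff_isComplex.mpr (hcx w))

/-- **LEAF `ClassFinC`** from the closed Props of the towers T2 and T3. -/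
theorem classFinC_of78 (hF : T2.FrameExists K)
    (hPD : ∀ 𝔫 : Ideal (𝓞 K), 𝔫 ≠ ⊥ → T2.PairDefinite K 𝔫)
    (hHS : ∀ 𝔫 : Ideal (𝓞 K), 𝔫 ≠ ⊥ → T2.HSBound K 𝔫)
    (hAS : T3.AS.AbelSatakeSmoothC K) (hν : T3.InAddHaarC K) (hSU : T3.InScalarUnifC K) :
    T7.H963.ClassFinC K := by
  classical
  intro hcx 𝔫 r l o C h𝔫 hr hC
  obtain ⟨F⟩ := hF
  obtain ⟨v₀, hv₀⟩ := T7.H963.goodPrimeC K 𝔫 h𝔫
  by_cases hb : C.b v₀ = 0
  · refine ⟨⊥, inferInstance, fun ψ hψ => ?_⟩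
    rw [Submodule.mem_bot]
    funext g
    have h1 := hψ.hecke v₀ hv₀
    rw [hb] at h1
    exact T3.H732.eq_zero_of_b_eq_zero732 K hSU h1 g
  obtain ⟨a₀, n, hn, hspan, hmem⟩ := exists_ray_pow78 K 𝔫 h𝔫 v₀ hv₀
  have ha₀ : algebraMap (𝓞 K) K a₀ ≠ 0 := by
    intro h0
    have h0' : a₀ = 0 :=
      (map_eq_zero_iff (algebraMap (𝓞 K) K) (FaithfulSMul.algebraMap_injective (𝓞 K) K)).1 h0
    rw [h0'] at hspan
    have hbot : (v₀.asIdeal ^ n) = ⊥ := by rw [← hspan]; simp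
    exact v₀.ne_bot (pow_eq_zero_iff (Nat.pos_iff_ne_zero.1 hn) |>.1 hbot)
  obtain ⟨ν, hνH⟩ := hν
  obtain ⟨κ, Δ, κ₀, hκ₀, hΦ⟩ :=
    hAS hcx F.μ F.haar ν hνH 𝔫 h𝔫 v₀ hv₀ a₀ n hn hspan hmem (Units.mk0 _ ha₀) rfl
  obtain ⟨f, hfc, hfs, hbi, hsupp, hsm, -, hop⟩ := hΦ (Phi78 K) (phi78_mem K)
  obtain ⟨z₁, z₂, hz1, hz2⟩ := T3.H732.exists_roots732 (C.a v₀) (C.b v₀)
  have hlam : κ₀ * T3.ftCoord K (Phi78 K) z₁ z₂ ≠ 0 := by
    rw [ftCoord_phi78]
    exact mul_ne_zero hκ₀ T3.H732.J732_ne_zero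
  have htest : T2.IsTestFn 𝔫 f :=
    { cont := hfc
      smooth := hsm
      cpt := hfs
      level_right := fun u hu g => (hbi.1 u hu g).2
      level_left := fun u hu g => (hbi.1 u hu g).1
      arch_right := fun w k hk g => (hbi.2 w k hk g).2
      arch_left := fun w k hk g => (hbi.2 w k hk g).1 }
  obtain ⟨C₀, hC₀⟩ := hHS 𝔫 h𝔫 F f htest
  have hfin : FiniteDimensional ℂ
      (eigSub78 F 𝔫 (hPD 𝔫 h𝔫) hfc hfs (κ₀ * T3.ftCoord K (Phi78 K) z₁ z₂)) :=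
    finite_eigSub78 F 𝔫 (hPD 𝔫 h𝔫) hfc hfs hlam hC₀
  refine ⟨(eigSub78 F 𝔫 (hPD 𝔫 h𝔫) hfc hfs (κ₀ * T3.ftCoord K (Phi78 K) z₁ z₂)).map
    (Sp78.fnL F 𝔫 (hPD 𝔫 h𝔫)), ?_, fun ψ hψ => ?_⟩
  · haveI := hfin
    exact Module.Finite.map _ _
  · have hcusp := isCuspFn_of_isEigFn78 hψ
    refine ⟨Sp78.mk F 𝔫 (hPD 𝔫 h𝔫) hcusp, ?_, rfl⟩
    show T2.conv F f ψ = fun g => κ₀ * T3.ftCoord K (Phi78 K) z₁ z₂ * ψ g
    funext g
    exact hop ψ (isSph0Level_of_isEigFn78 hcx hC hψ) (C.a v₀) (C.b v₀) z₁ z₂ (hψ.hecke v₀ hv₀)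
      hz1 hz2 hb g

end Fermat.Agent.LT.T7.H78

end
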