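import Mathlib

/-!
# Row LT, tower T7, node `SimpleC` (helper963), leaf `ClassFinC`: abstract part (helper78)

OFF-MAIN.  Mathlib only.  Complete proofs, nothing assumed.

* `finiteDimensional_of_orthonormal_le78`: a complex inner product space in which every finite
  orthonormal family has at most `N` members is finite-dimensional.
* `exists_ray_pow78`: for a non-zero ideal `𝔫` of the ring of integers of a number field and a
  prime `v₀` not dividing `𝔫`, some power `v₀ ^ n`, `n > 0`, is generated by an element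
  `a₀ ≡ 1 mod 𝔫` (finiteness of the class group and of `(𝒪/𝔫)ˣ`).
-/

set_option autoImplicit false
set_option linter.style.haveILetI false

open IsDedekindDomain NumberField
open scoped InnerProductSpace

namespace Fermat.Agent.LT.T7.H78

/-- A complex inner product space in which every finite orthonormal family has at most `N`
members is finite-dimensional. -/
theorem finiteDimensional_of_orthonormal_le78 {E : Type*} [NormedAddCommGroup E]
    [InnerProductSpace ℂ E] (N : ℕ)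
    (h : ∀ (n : ℕ) (e : Fin n → E), Orthonormal ℂ e → n ≤ N) : FiniteDimensional ℂ E := by
  have hr : Module.rank ℂ E ≤ (N : Cardinal) := by
    refine rank_le fun s hs => ?_
    let U : Submodule ℂ E := Submodule.span ℂ (s : Set E)
    haveI : FiniteDimensional ℂ U := FiniteDimensional.span_finset ℂ s
    have hfr : Module.finrank ℂ U = s.card := finrank_span_finset_eq_card hs
    let b := stdOrthonormalBasis ℂ U
    have ho : Orthonormal ℂ (fun i => ((b i : U) : E)) :=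
      b.orthonormal.comp_linearIsometry U.subtypeₗᵢ
    have := h _ _ ho
    omega
  exact Module.rank_lt_aleph0_iff.mp (lt_of_le_of_lt hr (Cardinal.natCast_lt_aleph0 (n := N)))

/-- A power of a prime outside the level is generated by an element `≡ 1` modulo the level
(finiteness of the class group and of `(𝒪/𝔫)ˣ`). -/
theorem exists_ray_pow78 (K : Type) [Field K] [NumberField K] (𝔫 : Ideal (𝓞 K)) (h𝔫 : 𝔫 ≠ ⊥)
    (v₀ : HeightOneSpectrum (𝓞 K)) (hv₀ : ¬ v₀.asIdeal ∣ 𝔫) :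
    ∃ (a₀ : 𝓞 K) (n : ℕ), 0 < n ∧ Ideal.span {a₀} = v₀.asIdeal ^ n ∧ a₀ - 1 ∈ 𝔫 := by
  classical
  -- 1. a power of `v₀` is principal
  have hI0 : v₀.asIdeal ∈ nonZeroDivisors (Ideal (𝓞 K)) :=
    mem_nonZeroDivisors_of_ne_zero v₀.ne_bot
  obtain ⟨h, hh, hpow⟩ :=
    (isOfFinOrder_of_finite (ClassGroup.mk0 ⟨v₀.asIdeal, hI0⟩)).exists_pow_eq_one
  have hprin : (v₀.asIdeal ^ h).IsPrincipal := by
    have hI0h : v₀.asIdeal ^ h ∈ nonZeroDivisors (Ideal (𝓞 K)) :=
      mem_nonZeroDivisors_of_ne_zero (pow_ne_zero _ v₀.ne_bot)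
    have h1 : ClassGroup.mk0 ⟨v₀.asIdeal ^ h, hI0h⟩ = 1 := by
      have h2 : (⟨v₀.asIdeal ^ h, hI0h⟩ : nonZeroDivisors (Ideal (𝓞 K))) =
          ⟨v₀.asIdeal, hI0⟩ ^ h := Subtype.ext rfl
      rw [h2, map_pow]
      exact hpow
    exact (ClassGroup.mk0_eq_one_iff hI0h).1 h1
  obtain ⟨a, ha⟩ := hprin.principal
  have ha' : Ideal.span {a} = v₀.asIdeal ^ h := ha.symm
  -- 2. `a` is invertible modulo `𝔫`
  have hle : ¬ 𝔫 ≤ v₀.asIdeal := fun hle => hv₀ (Ideal.dvd_iff_le.2 hle)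
  have hsup : v₀.asIdeal ⊔ 𝔫 = ⊤ := by
    by_contra hne
    have := v₀.isMaximal.eq_of_le hne le_sup_left
    exact hle (this ▸ le_sup_right)
  have hcop : IsCoprime (v₀.asIdeal ^ h) 𝔫 :=
    IsCoprime.pow_left (Ideal.isCoprime_iff_sup_eq.2 hsup)
  obtain ⟨b, hb⟩ : ∃ b : 𝓞 K, a * b - 1 ∈ 𝔫 := by
    have h1 : (1 : 𝓞 K) ∈ Ideal.span {a} ⊔ 𝔫 := by
      rw [ha', Ideal.isCoprime_iff_sup_eq.1 hcop]; trivial
    obtain ⟨x, hx, y, hy, hxy⟩ := Submodule.mem_sup.1 h1
    obtain ⟨c, rfl⟩ := Ideal.mem_span_singleton'.1 hx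
    refine ⟨c, ?_⟩
    have : a * c - 1 = -y := by rw [← hxy]; ring
    rw [this]
    exact 𝔫.neg_mem hy
  -- 3. a power of `a` is `≡ 1`
  haveI : Finite (𝓞 K ⧸ 𝔫) := Ideal.finiteQuotientOfFreeOfNeBot 𝔫 h𝔫
  let q := Ideal.Quotient.mk 𝔫
  have hu : q a * q b = 1 := by
    rw [← map_mul, ← sub_eq_zero, ← map_one q, ← map_sub]
    exact Ideal.Quotient.eq_zero_iff_mem.2 hb
  let u : (𝓞 K ⧸ 𝔫)ˣ := ⟨q a, q b, hu, by rw [mul_comm]; exact hu⟩
  obtain ⟨k, hk, hku⟩ := (isOfFinOrder_of_finite u).exists_pow_eq_one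
  refine ⟨a ^ k, h * k, Nat.mul_pos hh hk, ?_, ?_⟩
  · rw [← Ideal.span_singleton_pow, ha', ← pow_mul]
  · rw [← Ideal.Quotient.eq_zero_iff_mem, map_sub, map_pow, map_one, sub_eq_zero]
    have := congrArg (fun x : (𝓞 K ⧸ 𝔫)ˣ => (x : 𝓞 K ⧸ 𝔫)) hku
    simpa [u] using this

end Fermat.Agent.LT.T7.H78
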